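import Mathlib
import Fermat.Agent.MU.Lib.GenusEq.Main
import Fermat.Agent.MU.Lib.IgusaDeg.JInput
import Fermat.Agent.MU.F3.Transfer.Final

section MergeWrap_Lib_GaussInt_KeyAux -- from Lib/GaussInt/KeyAux.lean

set_option autoImplicit false
set_option synthInstance.maxHeartbeats 400000

noncomputable section

namespace Fermat.Agent.GaussInt

open ModularCurve AlgebraicCurve

/-- the KEY LEMMA at a level divisible by `4` or by `9`. -/
theorem keyLemmaAt_of_four_or_nine_dvd (M : ℕ) [NeZero M] (h : 4 ∣ M ∨ 9 ∣ M) : KeyLemmaAt M :=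
  Fermat.Agent.IgusaDeg.keyLemmaAt_of_genusFF_eq M fun ℓ hℓ A hA hℓM =>
    Fermat.Agent.GenusEq.genusFF_eq M h ℓ hℓ hℓM A hA

/-- **The KEY LEMMA at every level.** -/
theorem keyLemmaAt_all (N : ℕ) [NeZero N] : KeyLemmaAt N :=
  Fermat.Agent.F3T.keyLemmaAt_of_four_nine' N
    (keyLemmaAt_of_four_or_nine_dvd (4 * N) (Or.inl (dvd_mul_right 4 N)))
    (keyLemmaAt_of_four_or_nine_dvd (9 * N) (Or.inr (dvd_mul_right 9 N)))

end Fermat.Agent.GaussInt
end
end MergeWrap_Lib_GaussInt_KeyAux
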